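import Fermat.Agent.Top.Endgame
import Fermat.Agent.RM.Main
import Fermat.Agent.GR.RT.Lowering
import Fermat.Agent.BAD.AtP.NoEigen
import Fermat.Agent.HT.Mazur.Assemble
import Fermat.Agent.GR.AttachProof.Main
import Fermat.Agent.RED.Flat.GammaH
import Fermat.Agent.LT3.Main.Main
import Fermat.Agent.HT.Mazur.AtPOne
import Fermat.Agent.GR.RT.Lift.Assembly
import Fermat.Agent.GR.RT.NewProof
import Fermat.Agent.GR.RT.OrdInputProof
import Fermat.Agent.GR.RT.CharInputProof

/-!
# The chain to the root

* `lowering_of_inputs`: level lowering away from `p`.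
* `flt_of_libraries`: the endgame (`Top/Endgame`) with irreducibility from Mazur's method
  (`HT/Mazur`), the supersingular base at three (`RM`), lowering, and the Mazur principle at `p`
  (`BAD/AtP`) filled in; its hypotheses are lifting at three and five, the behaviour of `J₀(p)` at
  `p`, the weight one data and the inputs on bad reduction.
* `flt_of_torsion`: Fermat's Last Theorem from the torsion of the Jacobians at a prime exactly
  dividing the level (proved in `BAD/XH/Torsion` and `BAD/Ord/Torsion`, applied in `S01`), on which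
  lifting, lowering and the base at three rest.
-/

set_option autoImplicit false

noncomputable section

open Fermat.GR.RT

namespace Fermat.Top

/-- Level lowering at every `p ≥ 5` from the inputs on bad reduction away from `p`. -/
theorem lowering_of_inputs (hN : ∀ (p : ℕ) [Fact p.Prime], NewInput p)
    (hCh : ∀ (p : ℕ) [Fact p.Prime], CharInput p) (p : ℕ) [Fact p.Prime] (h5 : 4 < p) :
    LoweringStatement p :=
  loweringStatement_of_inputs h5 (Fermat.GR.RT.attachInput p) (hN p) (hCh p)
    (Fermat.RED.Flat.flatInput p)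

/-- **Fermat's Last Theorem**, from lifting at three and five, the weight one data, the behaviour of
`J₀(p)` at `p` and the inputs on bad reduction. -/
theorem flt_of_libraries [Fact (Nat.Prime 3)] [Fact (Nat.Prime 5)]
    (hat : Fermat.HT.Mazur.AtPAll)
    (hN : ∀ (p : ℕ) [Fact p.Prime], NewInput p)
    (hCh : ∀ (p : ℕ) [Fact p.Prime], CharInput p)
    (hOrd : OrdInput 3)
    (hW1 : ∀ (K L : Type) [Field K] [NumberField K] [Field L] [NumberField L] [Algebra K L],
      Fermat.RM.WeightOneDataStatement K L)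
    (h3 : LiftingSfStatement 3) (h5 : LiftingSfStatement 5)
    (n : ℕ) (hn : 3 ≤ n) (a b c : ℕ) (ha : 0 < a) (hb : 0 < b) (hc : 0 < c) :
    a ^ n + b ^ n ≠ c ^ n :=
  flt_of_inputs (fun P => Fermat.HT.Mazur.frey_irreducible_of_atP hat P) h3 h5
    (Fermat.RM.supersingularBase hW1 (Fermat.GR.RT.attachInput 3) (hN 3) hOrd
      (Fermat.RED.Flat.flatInput 3))
    (lowering_of_inputs hN hCh)
    (fun p _ hp => Fermat.BAD.AtP.mazurAtPTorsion_of_lowering p (lowering_of_inputs hN hCh p hp) hp)
    n hn a b c ha hb hc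

/-- **Fermat's Last Theorem**, from the torsion of the Jacobians at a prime exactly dividing the
level. -/
theorem flt_of_torsion
    (hI : ∀ (M q : ℕ) [NeZero M] [NeZero q] [Fact q.Prime] (H : Subgroup (ZMod M)ˣ)
      [Fermat.MC.Lvl.NegMem H], q.Prime → ¬ q ∣ M → Fermat.BAD.XH.InertiaStatement M q H)
    (hF : ∀ (M q : ℕ) [NeZero M] [NeZero q] [Fact q.Prime] (H : Subgroup (ZMod M)ˣ)
      [Fermat.MC.Lvl.NegMem H] (hq : q.Prime) (hqM : ¬ q ∣ M),
        Fermat.BAD.XH.FrobeniusStatement M q H hq hqM)
    (hT : ∀ (p : ℕ) [Fact p.Prime] [NeZero p], OrdTorsion p)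
    (n : ℕ) (hn : 3 ≤ n) (a b c : ℕ) (ha : 0 < a) (hb : 0 < b) (hc : 0 < c) :
    a ^ n + b ^ n ≠ c ^ n := by
  have : Fact (Nat.Prime 3) := ⟨by norm_num⟩
  have : Fact (Nat.Prime 5) := ⟨by norm_num⟩
  have : NeZero 3 := ⟨by norm_num⟩
  have : NeZero 5 := ⟨by norm_num⟩
  -- the inputs on bad reduction at `q ≠ p` (trace and sign), then at `q = p`
  have hN : ∀ (p : ℕ) [Fact p.Prime], NewInput p := fun p _ => newInput_of_torsion hI hF
  have hNS : ∀ (p : ℕ) [Fact p.Prime], NewSignInput p := fun p _ => newSignInput_of_torsion hI hF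
  have hO : ∀ (p : ℕ) [Fact p.Prime], OrdInput p := fun p hp =>
    haveI : NeZero p := ⟨hp.out.ne_zero⟩
    ordInput_of_torsion (hT p)
  have hOS : ∀ (p : ℕ) [Fact p.Prime], OrdSignInput p := fun p hp =>
    haveI : NeZero p := ⟨hp.out.ne_zero⟩
    ordSignInput_of_torsion (hT p)
  -- lifting at three and five rests on all four
  exact flt_of_libraries (fun p _ _ _hp => Fermat.HT.Mazur.atPHyp (p := p)) hN
    (fun p _ => charInput p) (hO 3) (fun K L => Fermat.LT3.weightOneDataStatement K L)
    (liftingSf_of_inputs 3 (hN 3) (hNS 3) (hO 3) (hOS 3))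
    (liftingSf_of_inputs 5 (hN 5) (hNS 5) (hO 5) (hOS 5)) n hn a b c ha hb hc

end Fermat.Top

end
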