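import Mathlib
import Fermat.Prelude.Def_FLTPrelim_FreyPackage

/-!
# From a counterexample to a Frey package

A solution of `aᵖ + bᵖ = cᵖ` in nonzero integers with `p ≥ 5` prime is divided by its gcd and then
permuted and signed so that `a ≡ 3 mod 4` and `b` is even.
-/

set_option autoImplicit false

namespace Fermat.Top.FreyOf

/-- A coprime solution with `b` even gives a Frey package. -/
theorem frey_of_coprime {p : ℕ} (pp : p.Prime) (hp5 : 5 ≤ p) {a b c : ℤ} (ha : a ≠ 0) (hb : b ≠ 0)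
    (hc : c ≠ 0) (hb2 : (b : ZMod 2) = 0) (hg : gcd a b = 1) (H : a ^ p + b ^ p = c ^ p) :
    Nonempty FreyPackage := by
  have hodd : Odd p := pp.odd_of_ne_two (by omega)
  have hb' : (2 : ℤ) ∣ b := (ZMod.intCast_zmod_eq_zero_iff_dvd b 2).1 hb2
  have ha' : ¬ (2 : ℤ) ∣ a := by
    intro h
    have h2 : (2 : ℤ) ∣ gcd a b := dvd_gcd h hb'
    rw [hg] at h2
    norm_num at h2
  have h4 : ∀ x : ℤ, x % 4 = 3 → (x : ZMod 4) = 3 := by
    intro x hx
    have : ((x - 3 : ℤ) : ZMod 4) = 0 := (ZMod.intCast_zmod_eq_zero_iff_dvd _ 4).2 (by omega)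
    push_cast at this
    exact sub_eq_zero.1 this
  rcases (show a % 4 = 3 ∨ (-a) % 4 = 3 by omega) with h | h
  · exact ⟨⟨a, b, c, ha, hb, hc, p, pp, hp5, H, hg, h4 a h, hb2⟩⟩
  · refine ⟨⟨-a, -b, -c, neg_ne_zero.2 ha, neg_ne_zero.2 hb, neg_ne_zero.2 hc, p, pp, hp5,
      ?_, ?_, h4 _ h, ?_⟩⟩
    · rw [hodd.neg_pow, hodd.neg_pow, hodd.neg_pow]; linarith
    · rw [← Int.coe_gcd] at hg ⊢
      rw [Int.neg_gcd, Int.gcd_neg]; exact hg
    · push_cast; rw [hb2, neg_zero]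

/-- A coprime solution gives a Frey package. -/
theorem frey_of_gcd_one {p : ℕ} (pp : p.Prime) (hp5 : 5 ≤ p) {a b c : ℤ} (ha : a ≠ 0) (hb : b ≠ 0)
    (hc : c ≠ 0) (hg : gcd a b = 1) (H : a ^ p + b ^ p = c ^ p) : Nonempty FreyPackage := by
  have hodd : Odd p := pp.odd_of_ne_two (by omega)
  by_cases hb2 : (b : ZMod 2) = 0
  · exact frey_of_coprime pp hp5 ha hb hc hb2 hg H
  by_cases ha2 : (a : ZMod 2) = 0
  · exact frey_of_coprime pp hp5 hb ha hc ha2 (by rw [gcd_comm]; exact hg) (by linarith)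
  have hc2 : (c : ZMod 2) = 0 := by
    have hp0 : p ≠ 0 := pp.ne_zero
    have e := congrArg (Int.cast : ℤ → ZMod 2) H
    push_cast at e
    have h1 : ∀ x : ZMod 2, x ≠ 0 → x = 1 := by decide
    rw [h1 _ hb2, h1 _ ha2, one_pow, (show (1 : ZMod 2) + 1 = 0 by decide)] at e
    exact pow_eq_zero_iff hp0 |>.1 e.symm
  refine frey_of_coprime pp hp5 (neg_ne_zero.2 ha) hc hb hc2 ?_ ?_
  · have := FreyPackage.gcdab_eq_gcdac pp.pos H
    rw [this, ← Int.coe_gcd] at hg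
    rw [← Int.coe_gcd, Int.neg_gcd]; exact hg
  · rw [hodd.neg_pow]; linarith

/-- A counterexample gives a Frey package. -/
theorem of_counterexample (a b c : ℤ) (ha : a ≠ 0) (hb : b ≠ 0) (hc : c ≠ 0)
    (p : ℕ) (pp : p.Prime) (hp5 : 5 ≤ p) (H : a ^ p + b ^ p = c ^ p) : Nonempty FreyPackage := by
  obtain ⟨d, hd⟩ : ∃ d : ℤ, d = gcd a b := ⟨_, rfl⟩
  have hd0 : d ≠ 0 := by
    rw [hd]; intro h; exact ha ((gcd_eq_zero_iff a b).1 h).1
  obtain ⟨a', ha'⟩ : d ∣ a := hd ▸ gcd_dvd_left a b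
  obtain ⟨b', hb'⟩ : d ∣ b := hd ▸ gcd_dvd_right a b
  obtain ⟨c', hc'⟩ : d ∣ c := by
    rw [← Int.pow_dvd_pow_iff pp.ne_zero, ← H]
    exact dvd_add (pow_dvd_pow_of_dvd ⟨a', ha'⟩ p) (pow_dvd_pow_of_dvd ⟨b', hb'⟩ p)
  subst ha' hb' hc'
  refine frey_of_gcd_one pp hp5 (right_ne_zero_of_mul ha) (right_ne_zero_of_mul hb)
    (right_ne_zero_of_mul hc) ?_ ?_
  · have h := gcd_mul_left d a' b'
    rw [← hd] at h
    have hnorm : normalize d = d := by rw [hd, normalize_gcd]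
    rw [hnorm] at h
    exact mul_left_cancel₀ hd0 (by rw [mul_one]; exact h.symm)
  · rw [mul_pow, mul_pow, mul_pow, ← mul_add] at H
    exact mul_left_cancel₀ (pow_ne_zero p hd0) H

end Fermat.Top.FreyOf
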