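import Mathlib.NumberTheory.FLT.Four
import Mathlib.NumberTheory.FLT.Three
import Fermat.Agent.S02

/-!
# Reduction to Frey packages

Exponents three and four are in Mathlib; a counterexample at a larger prime gives a Frey package.
-/

set_option autoImplicit false

namespace Fermat.Top

/-- Fermat's Last Theorem follows from the non-existence of Frey packages. -/
theorem flt_of_noFreyPackage (h : FreyPackage → False) (n : ℕ) (hn : 3 ≤ n) (a b c : ℕ)
    (ha : 0 < a) (hb : 0 < b) (hc : 0 < c) : a ^ n + b ^ n ≠ c ^ n := by
  have key : FermatLastTheorem := by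
    refine FermatLastTheorem.of_odd_primes fun p pp hodd => ?_
    by_cases hp3 : p = 3
    · exact hp3 ▸ fermatLastTheoremThree
    have hp5 : 5 ≤ p := by
      have := pp.two_le
      rcases hodd with ⟨m, rfl⟩
      omega
    refine fermatLastTheoremFor_iff_int.mpr fun x y z hx hy hz H => ?_
    exact (Fermat.Agent.S02.result x y z hx hy hz p pp hp5 H).elim h
  exact key n hn a b c ha.ne' hb.ne' hc.ne'

end Fermat.Top
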