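import Fermat.Agent.Top.Modularity
import Fermat.Agent.Top.Reduction
import Fermat.Agent.SW.Ramified
import Fermat.Agent.EC.Frey
import Fermat.Agent.S07
import Fermat.Agent.S08
import Fermat.Agent.BAD.AtP.MazurStatement

/-!
# No Frey package, given modularity, level lowering and irreducibility

The Frey curve is modular, so its `p`-torsion is modular at some squarefree level. As the torsion is
irreducible, unramified at the odd primes other than `p` and finite at `p`, all these primes can be
removed from the level, down to `1` or `2`, where there is no cusp form of weight two.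
-/

set_option autoImplicit false

noncomputable section

open WeierstrassCurve WeierstrassCurve.Affine Fermat.EC Fermat.EC.Val Fermat.SW Fermat.GR.RT
open scoped WeierstrassCurve.Affine

namespace Fermat.Top

local notation "ℚbar" => AlgebraicClosure ℚ
local notation "Γℚ" => (AlgebraicClosure ℚ ≃ₐ[ℚ] AlgebraicClosure ℚ)

variable (P : FreyPackage)

/-- The integral Frey model is semistable. -/
theorem frey_isSemistableModel : P.freyCurveInt.IsSemistableModel :=
  fun _ hq h => Fermat.EC.Frey.semistable P hq h

/-- Irreducibility of the Frey representation, read on the integral model. -/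
theorem irreducible_freyCurveInt
    (hirr : Point.GaloisRepIsIrreducible (K := ℚbar) ℚ P.freyCurve P.p) :
    P.freyCurveInt.ModRepIsIrreducible P.p := by
  unfold WeierstrassCurve.ModRepIsIrreducible
  rw [Fermat.EC.Frey.map_freyCurveInt]
  exact hirr

/-- The residual representation of the Frey curve is surjective. -/
theorem surjective_frey [Fact P.p.Prime]
    (hirr : Point.GaloisRepIsIrreducible (K := ℚbar) ℚ P.freyCurve P.p) :
    Function.Surjective (Tors.tRep (p := P.p) P.freyCurveInt (Fermat.EC.Frey.Δ_ne_zero P)) := by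
  have h5 := P.hp5
  -- inertia at `2`, where `p ∤ ord Δ`, moves a point, which gives an element of order `p`
  obtain ⟨A, hA⟩ := Fermat.CFT.exists_place Nat.prime_two
  obtain ⟨hbad, hord⟩ := Fermat.EC.Frey.not_dvd_padicValInt_Δ_two P
  obtain ⟨τ, hτ, Q, hQ, hne⟩ := Ram.exists_inertia_moves P.freyCurveInt (Fermat.EC.Frey.Δ_ne_zero P)
    (⟨Nat.prime_two, hA⟩ : IsPlace A 2) (by exact_mod_cast hbad)
    (Fermat.EC.Frey.semistable P Nat.prime_two (by exact_mod_cast hbad)) P.pp h5 (by omega) hord
  refine Tors.surjective_tRep_of_ramified _ (frey_isSemistableModel P) (by omega)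
    (irreducible_freyCurveInt P hirr) Nat.prime_two (by omega) hA hτ fun h1 => hne ?_
  exact congrArg Subtype.val ((Tors.tRep_eq_one _).mp h1
    ⟨Q, (Submodule.mem_torsionBy_iff _ _).mpr ((natCast_zsmul Q P.p).trans hQ)⟩)

/-- A divisor of `M / q` is less than `M`. -/
private theorem lt_of_dvd_div {M M' q : ℕ} (hM : 0 < M) (hq : 1 < q) (hqM : q ∣ M)
    (h : M' ∣ M / q) : M' < M :=
  lt_of_le_of_lt (Nat.le_of_dvd (Nat.div_pos (Nat.le_of_dvd hM hqM) (Nat.zero_lt_of_lt hq)) h)
    (Nat.div_lt_self hM hq)

/-- **No Frey package**, given irreducibility, modularity and level lowering away from `p` and at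
`p`. -/
theorem noFreyPackage
    (hirr : Point.GaloisRepIsIrreducible (K := ℚbar) ℚ P.freyCurve P.p)
    (hmod : ModSf P.freyCurveInt)
    (hlow : ∀ (p : ℕ) [Fact p.Prime], 4 < p → LoweringStatement p)
    (hatp : ∀ (p : ℕ) [Fact p.Prime], Fermat.BAD.AtP.MazurAtPTorsion p) : False := by
  have : Fact P.p.Prime := ⟨P.pp⟩
  have h5 := P.hp5
  set W := P.freyCurveInt
  have hW : W.Δ ≠ 0 := Fermat.EC.Frey.Δ_ne_zero P
  have hss : W.IsSemistableModel := frey_isSemistableModel P
  set rb := Tors.tRep (p := P.p) W hW
  have hres : IsSemistableResidual P.p rb :=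
    Tors.isSemistableResidual_tRep hW hss (by omega) (surjective_frey P hirr)
  -- the condition on a neat prime only speaks about `p = 3`
  have hneat : HasNeatPrime P.p rb := fun h => absurd h (by omega)
  -- by descent on the level, the torsion is modular at no squarefree level
  have main : ∀ M : ℕ, Squarefree M → ¬ ModularOf P.p rb M := by
    intro M
    induction M using Nat.strong_induction_on with
    | _ M ih =>
      intro hM hmodM
      have hM0 : 0 < M := hmodM.1
      -- remove `p`
      by_cases hpM : P.p ∣ M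
      · obtain ⟨M', hM', hmodM'⟩ := hatp P.p (by omega) W hW hss hres
          (Or.inr (Fermat.EC.Frey.dvd_padicValInt_Δ P P.pp (by omega))) M hM hpM hmodM
        exact ih M' (lt_of_dvd_div hM0 P.pp.one_lt hpM hM')
          (hM.squarefree_of_dvd (hM'.trans (Nat.div_dvd_of_dvd hpM))) hmodM'
      -- remove an odd prime, where the torsion is unramified as `p ∣ ord Δ`
      by_cases hodd : ∃ q : ℕ, q.Prime ∧ q ≠ 2 ∧ q ∣ M
      · obtain ⟨q, hq, hq2, hqM⟩ := hodd
        have hqp : q ≠ P.p := fun e => hpM (e ▸ hqM)
        obtain ⟨M', hM', hmodM'⟩ := hlow P.p (by omega) (by omega) rb hres hneat M q hM hpM hq hqM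
          (fun A hA σ hσ => Tors.unramified_tRep hW hss (by omega) hq hqp
            (Fermat.EC.Frey.dvd_padicValInt_Δ P hq hq2) hA hσ)
          hmodM
        exact ih M' (lt_of_dvd_div hM0 hq.one_lt hqM hM')
          (hM.squarefree_of_dvd (hM'.trans (Nat.div_dvd_of_dvd hqM))) hmodM'
      -- what is left is level `1` or `2`, with no cusp form
      push Not at hodd
      have h12 : M = 1 ∨ M = 2 := by
        have hd : M ∣ 2 := by
          have h2 : M.primeFactors ⊆ {2} := fun r hr => by
            rw [Finset.mem_singleton]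
            by_contra h2
            exact hodd r (Nat.prime_of_mem_primeFactors hr) h2 (Nat.dvd_of_mem_primeFactors hr)
          rw [← Nat.prod_primeFactors_of_squarefree hM]
          exact (Finset.prod_dvd_prod_of_subset _ _ (fun r => r) h2).trans (by simp)
        exact (Nat.dvd_prime Nat.prime_two).mp hd
      obtain ⟨-, f, -, hf, -⟩ := hmodM
      rcases h12 with rfl | rfl
      · exact hf.ne_zero (Fermat.Agent.S08.result f)
      · exact hf.ne_zero (Fermat.Agent.S07.result f)
  obtain ⟨N, hN, hbad, -, hm⟩ := hmod
  exact main N hN (modularOf_of_torEquiv hW ⟨AddEquiv.refl _, fun _ _ => rfl⟩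
    (Nat.pos_of_ne_zero hN.ne_zero) hbad hm)

/-- **Fermat's Last Theorem**, from irreducibility, lifting at three and five, the supersingular
base, level lowering away from `p` and the Mazur principle at `p`. -/
theorem flt_of_inputs [Fact (Nat.Prime 3)] [Fact (Nat.Prime 5)]
    (hirr : ∀ P : FreyPackage, Point.GaloisRepIsIrreducible (K := ℚbar) ℚ P.freyCurve P.p)
    (h3 : LiftingSfStatement 3) (h5 : LiftingSfStatement 5) (hbase : SupersingularBase)
    (hlow : ∀ (p : ℕ) [Fact p.Prime], 4 < p → LoweringStatement p)
    (hatp : ∀ (p : ℕ) [Fact p.Prime], Fermat.BAD.AtP.MazurAtPTorsion p)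
    (n : ℕ) (hn : 3 ≤ n) (a b c : ℕ) (ha : 0 < a) (hb : 0 < b) (hc : 0 < c) :
    a ^ n + b ^ n ≠ c ^ n :=
  flt_of_noFreyPackage (fun P => noFreyPackage P (hirr P)
    (modSf_of_semistable h3 h5 hbase _ (Fermat.EC.Frey.Δ_ne_zero P) (frey_isSemistableModel P))
    hlow hatp) n hn a b c ha hb hc

end Fermat.Top

end
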