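import Fermat.Agent.SW.Cusp
import Fermat.Agent.S51
import Fermat.Agent.SW.IrrThree
import Fermat.Agent.GR.RT.CurveTargets

/-!
# Semistable curves are modular, given lifting at three and five and a supersingular base

`SW/Chain` reduces modularity of a semistable model to three properties: modularity for good
supersingular reduction at three, and transfer of modularity along irreducible three- and
five-torsion. Here the first comes from the base and lifting at three, the other two from lifting.
-/

set_option autoImplicit false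

noncomputable section

open WeierstrassCurve WeierstrassCurve.Affine Fermat.EC Fermat.EC.Val Fermat.SW Fermat.GR.RT
open Matrix
open scoped WeierstrassCurve.Affine

namespace Fermat.Top

local notation "ℚbar" => AlgebraicClosure ℚ
local notation "Γℚ" => (AlgebraicClosure ℚ ≃ₐ[ℚ] AlgebraicClosure ℚ)

variable {p : ℕ} [hp : Fact p.Prime]

/-- A modular curve makes the torsion of every curve with the same torsion modular. -/
theorem modularOf_of_torEquiv {W W' : WeierstrassCurve ℤ} (hW : W.Δ ≠ 0)
    (he : TorEquiv p W W') {N : ℕ} (hN : 0 < N)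
    (hbad : ∀ q : ℕ, q.Prime → (q : ℤ) ∣ W'.Δ → q ∣ N) (hmod : W'.IsModularModelOfLevel N) :
    ModularOf p (Tors.tRep W hW) N := by
  obtain ⟨f, hf, hfa⟩ := hmod
  obtain ⟨𝔪, hmax, hpm⟩ := FLTPrelim.exists_maximalIdeal_natCast_prime_mem hp.out
  refine ⟨hN, f, 𝔪, hf, hmax, hpm, fun ℓ hℓ hℓN hℓp _ A hA φ hφ n hn => ?_⟩
  have hgood : ¬ (ℓ : ℤ) ∣ W'.Δ := fun h => hℓN (hbad ℓ hℓ h)
  refine ⟨(W'.apOfModel ℓ : ℤ), ?_, ?_⟩
  · push_cast
    exact (hfa ℓ hℓ hgood hℓN).symm
  · rw [Tors.trace_tRep, galoisTrace_eq_of_torEquiv he,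
      FR.galoisTrace_frobenius W' hℓ hℓp hgood hA hφ] at hn
    obtain ⟨k, hk⟩ := (ZMod.intCast_eq_intCast_iff_dvd_sub n (W'.apOfModel ℓ) p).mp hn
    rw [show ((W'.apOfModel ℓ : ℤ) : integralClosure ℤ ℂ) - (n : integralClosure ℤ ℂ) =
      (p : integralClosure ℤ ℂ) * (k : integralClosure ℤ ℂ) by
        rw [← Int.cast_sub, hk]; push_cast; rfl]
    exact Ideal.mul_mem_right _ _ hpm

/-- Lifting along an isomorphism of torsion, at three or five. -/
theorem modSf_of_torEquiv (hlift : LiftingSfStatement p) (hp35 : p = 3 ∨ p = 5)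
    (W W' : WeierstrassCurve ℤ) (hW : W.Δ ≠ 0) (hss : W.IsSemistableModel)
    (hirr : W.ModRepIsIrreducible p) (he : TorEquiv p W W')
    (hmod : ModSf W') (h3 : p = 3 → (3 : ℤ) ∣ W'.Δ → (3 : ℤ) ∣ W.Δ) : ModSf W := by
  obtain ⟨N, hN, hbad, hN3, hm⟩ := hmod
  have hp2 : 2 < p := by omega
  have hsurj : Function.Surjective (Tors.tRep (p := p) W hW) := by
    rcases hp35 with rfl | rfl
    exacts [Tors.surjective_tRep_three hW hss hirr, Tors.surjective_tRep_five hW hss hirr]
  exact hlift hp2 W _ hW hss (Tors.isSemistableResidual_tRep hW hss (by omega) hsurj)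
    (Tors.isTorsionOf_tRep hW hss (by omega)) N hN (fun e hd => h3 e (hN3 hd))
    (modularOf_of_torEquiv hW he (Nat.pos_of_ne_zero hN.ne_zero) hbad hm)

/-- **Semistable models are modular**, given lifting at three and five and the base case. -/
theorem modSf_of_semistable [Fact (Nat.Prime 3)] [Fact (Nat.Prime 5)]
    (h3 : LiftingSfStatement 3) (h5 : LiftingSfStatement 5) (hbase : SupersingularBase)
    (W : WeierstrassCurve ℤ) (hΔ : W.Δ ≠ 0) (hss : W.IsSemistableModel) : ModSf W := by
  obtain ⟨A, hA⟩ := Fermat.CFT.exists_place Nat.prime_three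
  refine mod_of_irreducible (Mod := ModSf) ?_ ?_ ?_ (⟨Nat.prime_three, hA⟩ : IsPlace A 3)
    (multTarget ⟨Nat.prime_three, hA⟩) W hΔ hss (Fermat.Agent.S51.result W hΔ hss)
  -- good supersingular reduction at three: the base, lifted
  · intro W hW hss hgood hb2
    obtain ⟨M, hM, h3M, hmod⟩ := hbase W hW hss hgood hb2
    exact h3 (by norm_num) W _ hW hss
      (Tors.isSemistableResidual_tRep hW hss (by norm_num)
        (Tors.surjective_tRep_three hW hss (irreducible_three_of_supersingular W hgood hb2)))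
      (Tors.isTorsionOf_tRep hW hss (by norm_num)) M hM (fun _ h => absurd h h3M) hmod
  -- transfer along the five- and the three-torsion
  · exact fun W W' hW hss hirr _ _ he h =>
      modSf_of_torEquiv h5 (Or.inr rfl) W W' hW hss hirr he h (by norm_num)
  · exact fun W W' hW hss hirr _ _ he h3' h =>
      modSf_of_torEquiv h3 (Or.inl rfl) W W' hW hss hirr he h fun _ => h3'

end Fermat.Top

end
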